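import Fermat.Agent.LT.Setup.Contracts
import Fermat.Agent.LT.GaloisData.AtThree

/-!
# The mod-3 representation at supersingular reduction

`ρ₃` of a semistable curve with supersingular reduction at three and irreducible 3-torsion is a
`IsSupersingularRep`: surjective, tame away from three, with inertia of order eight at three.
-/

set_option autoImplicit false

noncomputable section

open Fermat.Agent.LT.GaloisData

namespace Fermat.Agent.LT.Top

variable {W : WeierstrassCurve ℤ}

theorem orderOf_eq_eight {g : Final.GF3} (h : g ^ 4 = -1) : orderOf g = 8 := by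
  have hne : (-1 : Final.GF3) ≠ 1 := fun e => by
    have := congrFun (congrFun (congrArg (fun u : Final.GF3 =>
      (u : Matrix (Fin 2) (Fin 2) (ZMod 3))) e) 0) 0
    simp only [Units.val_neg, Units.val_one, Matrix.neg_apply, Matrix.one_apply_eq] at this
    exact absurd this (by decide)
  have : Fact (Nat.Prime 2) := ⟨Nat.prime_two⟩
  refine orderOf_eq_prime_pow (p := 2) (n := 2) ?_ ?_
  · change ¬ g ^ 4 = 1
    rw [h]; exact hne
  · change g ^ (4 * 2) = 1
    rw [pow_mul, h, neg_one_sq]

/-- `ρ₃` of the curve is a supersingular representation. -/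
theorem isSupersingularRep_rhoThree (hΔ : W.Δ ≠ 0) (hW : W.IsSemistableModel)
    (hirr : W.ModRepIsIrreducible 3) (hs : Chain.SupersingularAtThree W) :
    IsSupersingularRep (rhoThree W hΔ) where
  continuous := rhoThree_continuous W hΔ
  surjective := rhoThree_surjective W hΔ hW hirr
  det := det_rhoThree W hΔ
  tame q hq hq3 A hA τ hτ := (rhoThree_inertia W hΔ hW hirr hq hq3 hA hτ).2.1
  decomposition A hA σ hσ hdet := decomposition_three_le hs hA hσ hdet
  inertia A hA := by
    obtain ⟨τ, hτ, -, h4, -⟩ := inertia_three_eq (hΔ := hΔ) hs hA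
    exact ⟨τ, hτ, orderOf_eq_eight h4⟩

end Fermat.Agent.LT.Top

end
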