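import Fermat.Agent.LT.Final.WeightTwo
import Fermat.Agent.LT.GaloisData.Lift
import Fermat.Agent.LT.Top.Rep

/-!
# The Langlands–Tunnell step for supersingular curves

`DescentStep` and `LiftStep` give the split weight one form, the theorem of Deligne and Serre
turns it into the weight one eigensystem, the theta series into a weight two one, and
`LevelThreeStep` removes the excess power of three.
-/

set_option autoImplicit false

noncomputable section

open Fermat.Agent.LT.Final (DeligneSerreWeightOne)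
open WeierstrassCurve (modThreeCyclotomicChar)

namespace Fermat.Agent.LT.Top

local notation "Γℚ" => (AlgebraicClosure ℚ ≃ₐ[ℚ] AlgebraicClosure ℚ)

/-- Removal of the excess power of three at supersingular reduction. -/
def LevelThreeStep : Prop :=
  ∀ W : WeierstrassCurve ℤ, W.Δ ≠ 0 → W.IsSemistableModel → W.ModRepIsIrreducible 3 →
    Chain.SupersingularAtThree W →
    ∀ M : ℕ, 0 < M → W.IsResiduallyModularOfLevel 3 M →
      (∀ q : ℕ, q.Prime → q ≠ 3 → ¬ q ^ 3 ∣ M) →
      ∃ M' : ℕ, 0 < M' ∧ W.IsResiduallyModularOfLevel 3 M' ∧ ¬ 3 ^ 2 ∣ M' ∧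
        ∀ q : ℕ, q.Prime → q ≠ 3 → ¬ q ^ 3 ∣ M'

variable {ρ : Γℚ →* GL (Fin 2) (ZMod 3)} {Ψ : GL (Fin 2) (ZMod 3) →* GL (Fin 2) (ℤ√(-2))}

/-- Descent and lift give a split weight one form of level cube-free away from three. -/
theorem exists_splitWeightOneForm (hD : DescentStep) (hL : LiftStep) (hρ : IsSupersingularRep ρ)
    (hΨ : ∀ g, Matrix.GeneralLinearGroup.map FLT.ExplicitLift.red (Ψ g) = g) :
    ∃ N, Final.HasSplitWeightOneForm ρ Ψ N ∧ ∀ q : ℕ, q.Prime → q ≠ 3 → ¬ q ^ 3 ∣ N := by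
  obtain ⟨N, hN⟩ := hD ρ hρ Ψ hΨ
  exact hL ρ hρ Ψ hΨ N hN

/-- **The residual base case at supersingular reduction.** -/
theorem supersingularBaseAtThree (hD : DescentStep) (hL : LiftStep) (hS : DeligneSerreWeightOne)
    (h3 : LevelThreeStep) : Chain.SupersingularBaseAtThree := by
  intro W hΔ hW hirr hs
  obtain ⟨Ψ, hΨ⟩ := GaloisData.exists_lift
  have hρ := isSupersingularRep_rhoThree hΔ hW hirr hs
  obtain ⟨N, hdata, hcube⟩ := exists_splitWeightOneForm hD hL hρ hΨ
  have hres := Final.isResiduallyModularOfLevel (W := W) hS hρ.continuous hρ.surjective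
    hρ.det hΨ (fun ℓ hℓ hgood h3 A hA σ hσ => GaloisData.trace_rhoThree W hΔ hℓ hgood h3 hA hσ)
    hdata
  exact h3 W hΔ hW hirr hs _ (Final.finalLevel_pos hdata.1) hres
    fun q hq hq3 => Final.finalLevel_not_cube_dvd hq hq3 (hcube q hq hq3)

end Fermat.Agent.LT.Top

end
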